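import Fermat.Agent.PointCountOmega.Count
import Fermat.Agent.ErdosKac.Turan

/-!
# Turán's inequality for the number of prime divisors of point counts

All but boundedly many prime divisors of `#E(𝔽_p)`, `p ≤ N`, are at most `N ^ (1/40)`; the counts
at one and at two of them give `∑ (ω (#E(𝔽_p)) - log log N) ^ 2 = O (π N log log N)`.
-/

set_option autoImplicit false
set_option linter.style.haveILetI false

noncomputable section

open Finset Filter WeierstrassCurve FA.Frob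
open FA.ArtinHooley (logInt)
open FA.CyclicRed (AllFieldsRH badPrimes)
open FA.ErdosKac (primesUpTo mem_primesUpTo recipSum loglog)
open scoped Classical Topology WeierstrassCurve.Affine

local notation "Qb" => AlgebraicClosure ℚ
local notation "GQ" => AlgebraicClosure ℚ ≃ₐ[ℚ] AlgebraicClosure ℚ

namespace FA.PointOmega

/-- The sieving primes. -/
def sievePrimes (m z : ℕ) : Finset ℕ := (primesUpTo z).filter (m < ·)

theorem abs_omega_sub_le {m z N M : ℕ} (hM0 : M ≠ 0) (hz : 1 ≤ z) (hM : M ≤ N ^ 3)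
    (hN : N ≤ (z + 1) ^ 40) :
    |(M.primeFactors.card : ℝ) - ((sievePrimes m z).filter (· ∣ M)).card| ≤ (m : ℝ) + 121 := by
  have hsub : (sievePrimes m z).filter (· ∣ M) ⊆ M.primeFactors := fun l hl => by
    rw [mem_filter, sievePrimes, mem_filter, mem_primesUpTo] at hl
    exact Nat.mem_primeFactors.2 ⟨hl.1.1.1, hl.2, hM0⟩
  obtain ⟨big, hbig⟩ : ∃ b, b = M.primeFactors.filter (z < ·) := ⟨_, rfl⟩
  have hb : big.card ≤ 120 := by
    refine (Nat.pow_le_pow_iff_right (show 1 < z + 1 by omega)).1 ?_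
    refine (pow_card_le_prod _ _ _ fun l hl => ?_).trans ((Nat.le_of_dvd (Nat.pos_of_ne_zero hM0)
      ((prod_dvd_prod_of_subset _ _ _ (hbig ▸ filter_subset _ _)).trans
        (Nat.prod_primeFactors_dvd M))).trans ?_)
    · rw [hbig, mem_filter] at hl
      exact hl.2
    · calc M ≤ N ^ 3 := hM
        _ ≤ ((z + 1) ^ 40) ^ 3 := Nat.pow_le_pow_left hN 3
        _ = (z + 1) ^ 120 := by rw [← pow_mul]
  have hcov : M.primeFactors ⊆
      (sievePrimes m z).filter (· ∣ M) ∪ (range (m + 1) ∪ big) := fun l hl => by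
    rw [mem_union, mem_union, mem_filter, sievePrimes, mem_filter, mem_primesUpTo, mem_range, hbig,
      mem_filter]
    obtain ⟨h1, h2, -⟩ := Nat.mem_primeFactors.1 hl
    rcases lt_or_ge m l with h | h
    · rcases lt_or_ge z l with h' | h'
      exacts [Or.inr (Or.inr ⟨hl, h'⟩), Or.inl ⟨⟨⟨h1, h'⟩, h⟩, h2⟩]
    · exact Or.inr (Or.inl (by omega))
  have hc := ((card_le_card hcov).trans (card_union_le _ _)).trans
    (Nat.add_le_add_left ((card_union_le _ _).trans (Nat.add_le_add (card_range _).le hb)) _)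
  have h1 := (Nat.cast_le (α := ℝ)).2 hc
  have h2 := (Nat.cast_le (α := ℝ)).2 (card_le_card hsub)
  push_cast at h1
  rw [abs_le]
  constructor <;> linarith [(Nat.cast_nonneg m : (0 : ℝ) ≤ m)]

/-- The sum of the shares is `∑ 1 / l + O (1)`. -/
theorem abs_shareSum_sub_recipSum_le (m z : ℕ) :
    |∑ l ∈ sievePrimes m z, localShare l - recipSum z| ≤ (m : ℝ) + 5 := by
  have hlow : ∑ l ∈ sievePrimes m z, (1 : ℝ) / l ≤ ∑ l ∈ sievePrimes m z, localShare l :=
    sum_le_sum fun l hl => (localShare_bounds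
      (mem_primesUpTo.1 (mem_filter.1 hl).1).1.two_le).1
  have hup : ∑ l ∈ sievePrimes m z, localShare l ≤
      recipSum z + ∑ l ∈ primesUpTo z, 2 * ((l : ℝ) ^ 2)⁻¹ := by
    rw [recipSum, ← sum_add_distrib]
    refine (sum_le_sum fun l hl => (localShare_bounds
      (mem_primesUpTo.1 (mem_filter.1 hl).1).1.two_le).2.1).trans
      ((sum_le_sum_of_subset_of_nonneg (filter_subset _ _) fun l _ _ => by positivity).trans
        (le_of_eq (sum_congr rfl fun l _ => by rw [one_div, div_eq_mul_inv])))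
  have hsq : ∑ l ∈ primesUpTo z, ((l : ℝ) ^ 2)⁻¹ ≤ 2 := by
    refine (sum_le_sum_of_subset_of_nonneg (t := Ioo 0 (z + 1)) (fun l hl => ?_)
      fun l _ _ => by positivity).trans ((sum_Ioo_inv_sq_le (α := ℝ) 0 (z + 1)).trans
        (by norm_num))
    rw [mem_primesUpTo] at hl
    exact mem_Ioo.2 ⟨hl.1.pos, by omega⟩
  have hsmall : recipSum z ≤ ∑ l ∈ sievePrimes m z, (1 : ℝ) / l + (m + 1) := by
    rw [recipSum, sievePrimes, ← sum_filter_add_sum_filter_not (primesUpTo z) (m < ·)]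
    refine add_le_add (le_of_eq (sum_congr rfl fun l _ => (one_div _).symm)) ?_
    refine (sum_le_card_nsmul _ _ (1 : ℝ) fun l hl => inv_le_one_of_one_le₀
      (Nat.one_le_cast.2 (mem_primesUpTo.1 (mem_filter.1 hl).1).1.one_le)).trans ?_
    rw [nsmul_one]
    refine le_trans (Nat.cast_le.2 (card_le_card (t := range (m + 1)) fun l hl => ?_))
      (by rw [card_range]; push_cast; exact le_rfl)
    rw [mem_range]
    have := (mem_filter.1 hl).2
    omega
  rw [← mul_sum] at hup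
  rw [abs_le]
  constructor <;> linarith

/-- The sum of the shares is `log log N + O (1)`. -/
theorem exists_shareSum_sub_le (m : ℕ) : ∃ C : ℝ, 0 ≤ C ∧ ∀ N z : ℕ, 2 ≤ z →
    (z : ℝ) ≤ (N : ℝ) ^ (1 / 40 : ℝ) → (N : ℝ) ^ (1 / 40 : ℝ) ≤ 2 * z → 80 ≤ Real.log N →
    |∑ l ∈ sievePrimes m z, localShare l - loglog N| ≤ C := by
  obtain ⟨C, hC⟩ := FA.ErdosKac.exists_abs_recipSum_sub_le
  refine ⟨|C| + Real.log 80 + m + 5, by positivity, fun N z hz2 hzy hyz hL => ?_⟩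
  have hN0 : (0 : ℝ) < N := by
    rcases Nat.eq_zero_or_pos N with rfl | h
    · norm_num at hL
    · exact_mod_cast h
  have hz0 : (0 : ℝ) < z := by exact_mod_cast (show 0 < z by omega)
  have hlu : Real.log z ≤ 1 / 40 * Real.log N := by
    rw [← Real.log_rpow hN0]
    exact Real.log_le_log hz0 hzy
  have hll : 1 / 40 * Real.log N ≤ Real.log 2 + Real.log z := by
    rw [← Real.log_rpow hN0, ← Real.log_mul two_ne_zero hz0.ne']
    exact Real.log_le_log (by positivity) hyz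
  have hl2 := Real.log_two_lt_d9
  have h1 : Real.log (Real.log z) ≤ loglog N :=
    Real.log_le_log (by linarith) (by linarith)
  have h2 : loglog N - Real.log 80 ≤ Real.log (Real.log z) := by
    rw [loglog, ← Real.log_div (by linarith) (by norm_num)]
    exact Real.log_le_log (by positivity) (by linarith)
  have h3 := abs_le.1 (hC z hz2)
  have h4 := abs_le.1 (abs_shareSum_sub_recipSum_le m z)
  rw [abs_le]
  constructor <;> linarith [le_abs_self C, neg_abs_le C,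
    Real.log_nonneg (show (1 : ℝ) ≤ 80 by norm_num)]

theorem pairShare_le (l q : ℕ) (hl : 2 ≤ l) (hq : 2 ≤ q) :
    ∏ x ∈ {l, q}, localShare x ≤
      (if l = q then localShare l else 0) + localShare l * localShare q := by
  have h1 := (localShare_bounds hl).2.2
  have h2 := (localShare_bounds hq).2.2
  by_cases h : l = q
  · subst h
    rw [if_pos rfl, pair_eq_singleton, prod_singleton]
    exact le_add_of_nonneg_right (mul_nonneg h1 h1)
  · rw [if_neg h, prod_pair h, zero_add]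

variable (W : WeierstrassCurve ℤ)

/-- The number of prime divisors of the number of points. -/
def omegaPoints (p : ℕ) : ℕ := (pointsMod W p).primeFactors.card

/-- **The second moment.** -/
theorem sum_sq_le {T P : Finset ℕ} {M : ℕ → ℕ} {li E x : ℝ} (hx : 0 ≤ x)
    (hT : ∀ l ∈ T, 2 ≤ l)
    (h0 : (P.card : ℝ) ≤ li + E)
    (h1 : ∀ l ∈ T, localShare l * li - E ≤ (P.filter fun p => l ∣ M p).card)
    (h2 : ∀ l ∈ T, ∀ q ∈ T, ((P.filter fun p => l ∣ M p ∧ q ∣ M p).card : ℝ) ≤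
      (∏ x ∈ {l, q}, localShare x) * li + E) (hli : 0 ≤ li) :
    ∑ p ∈ P, (((T.filter (· ∣ M p)).card : ℝ) - x) ^ 2 ≤
      ((∑ l ∈ T, localShare l - x) ^ 2 + ∑ l ∈ T, localShare l) * li +
        ((T.card : ℝ) + x) ^ 2 * E := by
  obtain ⟨σ, hσ⟩ : ∃ σ, σ = ∑ l ∈ T, localShare l := ⟨_, rfl⟩
  have hlow : σ * li - T.card * E ≤ ∑ p ∈ P, ((T.filter (· ∣ M p)).card : ℝ) := by
    simp only [card_filter, Nat.cast_sum, Nat.cast_ite, Nat.cast_one, Nat.cast_zero]
    rw [sum_comm, hσ, sum_mul, ← nsmul_eq_mul, ← sum_const, ← sum_sub_distrib]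
    exact sum_le_sum fun l hl => (h1 l hl).trans (le_of_eq (sum_boole _ _).symm)
  have hhigh : ∑ p ∈ P, ((T.filter (· ∣ M p)).card : ℝ) ^ 2 ≤
      (σ + σ ^ 2) * li + (T.card : ℝ) ^ 2 * E := by
    have e : (σ + σ ^ 2) * li + (T.card : ℝ) ^ 2 * E = ∑ l ∈ T, ∑ q ∈ T,
        (((if l = q then localShare l else 0) + localShare l * localShare q) * li + E) := by
      simp only [sum_add_distrib, ← sum_mul, sum_const, nsmul_eq_mul, sq]
      rw [hσ, sum_mul_sum, sum_congr rfl fun l hl => (sum_ite_eq T l _).trans (if_pos hl),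
        mul_assoc]
    rw [e]
    simp only [card_filter, Nat.cast_sum, Nat.cast_ite, Nat.cast_one, Nat.cast_zero, sq,
      sum_mul_sum, ite_zero_mul_ite_zero, mul_one]
    rw [sum_comm]
    refine sum_le_sum fun l hl => ?_
    rw [sum_comm]
    refine sum_le_sum fun q hq => ?_
    rw [sum_boole]
    exact (h2 l hl q hq).trans (add_le_add_left (mul_le_mul_of_nonneg_right
      (pairShare_le l q (hT l hl) (hT q hq)) hli) _)
  rw [sum_congr rfl fun p _ => sub_sq (((T.filter (· ∣ M p)).card : ℝ)) x, sum_add_distrib,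
    sum_sub_distrib, sum_const, nsmul_eq_mul, ← sum_mul, ← mul_sum, ← hσ]
  have h3 := mul_le_mul_of_nonneg_left hlow (show (0 : ℝ) ≤ 2 * x by linarith)
  have h4 := mul_le_mul_of_nonneg_right h0 (sq_nonneg x)
  linarith

/-- The error is negligible. -/
theorem error_le {B L y z n w : ℝ} (hB : 0 ≤ B) (hL : 1 ≤ L) (hn : 1 ≤ n) (hz : 0 ≤ z)
    (hzy : z ≤ y) (hy : y = n ^ (1 / 40 : ℝ)) (hw : w ≤ z ^ 2 * (1 + L) ^ 2)
    (hsmall : L ^ (7 : ℕ) ≤ 1 / (32 * (B + 1)) * n ^ (9 / 40 : ℝ)) :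
    w * (B * z ^ 9 * (√n * L ^ 4 + 1)) ≤ n / (4 * L) := by
  have hn0 : 0 < n := by linarith
  have hy0 : 0 ≤ y := hz.trans hzy
  have hs : 1 ≤ √n := Real.one_le_sqrt.2 hn
  have hR : √n * L ^ 4 + 1 ≤ 2 * (√n * L ^ 4) := by
    linarith [one_le_mul_of_one_le_of_one_le hs (one_le_pow₀ hL (n := 4))]
  have h1 : w ≤ y ^ 2 * (2 * L) ^ 2 := hw.trans (mul_le_mul (pow_le_pow_left₀ hz hzy 2)
    (pow_le_pow_left₀ (by linarith) (by linarith) 2) (sq_nonneg _) (sq_nonneg _))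
  have h2 : B * z ^ 9 * (√n * L ^ 4 + 1) ≤ B * y ^ 9 * (2 * (√n * L ^ 4)) :=
    mul_le_mul (mul_le_mul_of_nonneg_left (pow_le_pow_left₀ hz hzy 9) hB) hR (by positivity)
      (mul_nonneg hB (pow_nonneg hy0 9))
  refine (mul_le_mul h1 h2 (by positivity) (by positivity)).trans ?_
  have h3 : y ^ 11 * √n = n ^ (31 / 40 : ℝ) := by
    rw [hy, ← Real.rpow_natCast (n ^ (1 / 40 : ℝ)) 11, ← Real.rpow_mul hn0.le,
      Real.sqrt_eq_rpow, ← Real.rpow_add hn0]
    norm_num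
  rw [show y ^ 2 * (2 * L) ^ 2 * (B * y ^ 9 * (2 * (√n * L ^ 4))) =
    8 * B * L ^ 6 * (y ^ 11 * √n) by ring, h3, le_div_iff₀ (by linarith)]
  calc 8 * B * L ^ 6 * n ^ (31 / 40 : ℝ) * (4 * L) = 32 * B * n ^ (31 / 40 : ℝ) * L ^ 7 := by ring
    _ ≤ 32 * B * n ^ (31 / 40 : ℝ) * (1 / (32 * (B + 1)) * n ^ (9 / 40 : ℝ)) :=
        mul_le_mul_of_nonneg_left hsmall (by positivity)
    _ = B / (B + 1) * (n ^ (31 / 40 : ℝ) * n ^ (9 / 40 : ℝ)) := by field_simp
    _ ≤ 1 * n := by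
        rw [← Real.rpow_add hn0, show (31 / 40 : ℝ) + 9 / 40 = 1 by norm_num, Real.rpow_one]
        exact mul_le_mul_of_nonneg_right ((div_le_one (by linarith)).2 (by linarith)) hn0.le
    _ = n := one_mul n

/-- From the small prime divisors to all. -/
theorem sum_omega_sq_le {m z N : ℕ} {P : Finset ℕ} (x : ℝ) (hz : 1 ≤ z) (hN : 2 ≤ N)
    (hNz : N ≤ (z + 1) ^ 40) (hP : ∀ p ∈ P, p.Prime ∧ p ≤ N) :
    ∑ p ∈ P, ((omegaPoints W p : ℝ) - x) ^ 2 ≤
      2 * ∑ p ∈ P, (((sievePrimes m z).filter (· ∣ pointsMod W p)).card - x : ℝ) ^ 2 +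
        P.card * (2 * ((m : ℝ) + 121) ^ 2) := by
  rw [mul_sum, ← nsmul_eq_mul, ← sum_const, ← sum_add_distrib]
  refine sum_le_sum fun p hp => ?_
  haveI := Fact.mk (hP p hp).1
  obtain ⟨hpos, hle⟩ := pointsMod_pos W p
  have hM : pointsMod W p ≤ N ^ 3 := by
    have h1 : p ^ 2 ≤ N ^ 2 := Nat.pow_le_pow_left (hP p hp).2 2
    have h2 : N ^ 2 * 2 ≤ N ^ 2 * N := Nat.mul_le_mul_left _ hN
    have h3 : 1 ≤ N ^ 2 := Nat.one_le_pow _ _ (by omega)
    rw [pow_succ N 2]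
    omega
  have h := abs_omega_sub_le (m := m) hpos.ne' hz hM hNz
  obtain ⟨f, hf⟩ : ∃ f : ℝ, f = ((sievePrimes m z).filter (· ∣ pointsMod W p)).card := ⟨_, rfl⟩
  obtain ⟨w, hw⟩ : ∃ w : ℝ, w = (omegaPoints W p : ℝ) := ⟨_, rfl⟩
  rw [omegaPoints] at hw
  rw [← hf, ← hw] at h
  rw [omegaPoints, ← hf, ← hw]
  have h2 := sq_le_sq' (abs_le.1 h).1 (abs_le.1 h).2
  linarith [two_mul_le_add_sq (f - x) (w - f)]

variable [(ratCurve W).IsElliptic]

/-- **Turán's inequality for point counts.** -/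
theorem exists_turan_good (hΔ : W.Δ ≠ 0) (hGRH : AllFieldsRH) {m : ℕ} (hm : m ≠ 0)
    (hsurj : ∀ N : ℕ, N ≠ 0 → N.Coprime m →
      ∀ φ : Submodule.torsionBy ℤ ((ratCurve W)⁄Qb).Point (N : ℤ) ≃+
        Submodule.torsionBy ℤ ((ratCurve W)⁄Qb).Point (N : ℤ),
      ∃ σ : GQ, ∀ x, σ • x.1 = (φ x).1) :
    ∃ C : ℝ, 0 ≤ C ∧ ∀ᶠ N : ℕ in atTop, (N : ℝ) / (4 * Real.log N) ≤ (dvdCount W ∅ N).card ∧
      ∑ p ∈ dvdCount W ∅ N, ((omegaPoints W p : ℝ) - loglog N) ^ 2 ≤
        C * (dvdCount W ∅ N).card * loglog N := by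
  obtain ⟨B, hB, hcnt⟩ := exists_dvdCount_le W hΔ hGRH hm hsurj
  obtain ⟨C, hC0, hC⟩ := exists_shareSum_sub_le m
  refine ⟨4 * (C ^ 2 + C + 2) + 2 * ((m : ℝ) + 121) ^ 2, by positivity, ?_⟩
  filter_upwards [tendsto_natCast_atTop_atTop.eventually
      ((isLittleO_log_rpow_rpow_atTop (s := 9 / 40) 7 (by norm_num)).bound
        (show (0 : ℝ) < 1 / (32 * (B + 1)) by positivity)),
    tendsto_natCast_atTop_atTop.eventually
      ((FA.ArtinHooley.tendsto_logInt).eventually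
        (Ici_mem_nhds (show (1 / 2 : ℝ) < 1 by norm_num))),
    (Real.tendsto_log_atTop.comp tendsto_natCast_atTop_atTop).eventually_ge_atTop 80,
    FA.ErdosKac.tendsto_loglog.eventually_ge_atTop 1, eventually_ge_atTop 2]
    with N hsmall hliN hL hx1 hN
  simp only [Function.comp_apply] at hL
  change (1 / 2 : ℝ) ≤ _ at hliN
  obtain ⟨L, hLdef⟩ : ∃ L, L = Real.log (N : ℝ) := ⟨_, rfl⟩
  obtain ⟨x, hxdef⟩ : ∃ x, x = loglog N := ⟨_, rfl⟩
  have hN0 : (0 : ℝ) < N := Nat.cast_pos.2 (by omega)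
  have hxL : x ≤ L := hxdef ▸ hLdef ▸ Real.log_le_self (by linarith)
  rw [← hLdef] at hsmall hliN hL
  rw [← hxdef] at hx1
  rw [← hLdef, ← hxdef]
  obtain ⟨y, hy⟩ : ∃ y, y = (N : ℝ) ^ (1 / 40 : ℝ) := ⟨_, rfl⟩
  have hy2 : 3 ≤ y := by
    rw [hy, Real.rpow_def_of_pos hN0, ← hLdef]
    linarith [Real.add_one_le_exp (L * (1 / 40))]
  obtain ⟨z, hz⟩ : ∃ z, z = ⌊y⌋₊ := ⟨_, rfl⟩
  have hzy : (z : ℝ) ≤ y := hz ▸ Nat.floor_le (by linarith)
  have hyz : y < z + 1 := hz ▸ Nat.lt_floor_add_one y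
  have hz2 : 2 ≤ z := hz ▸ Nat.le_floor (by push_cast; linarith)
  have hz1 : (1 : ℝ) ≤ z := Nat.one_le_cast.2 (by omega)
  have hNz : N ≤ (z + 1) ^ 40 := by
    have h := pow_le_pow_left₀ (show (0 : ℝ) ≤ y by linarith) hyz.le 40
    rw [hy, ← Real.rpow_natCast ((N : ℝ) ^ (1 / 40 : ℝ)) 40, ← Real.rpow_mul hN0.le,
      show (1 / 40 : ℝ) * ((40 : ℕ) : ℝ) = 1 by norm_num, Real.rpow_one] at h
    exact_mod_cast h
  obtain ⟨P, hP⟩ : ∃ P, P = dvdCount W ∅ N := ⟨_, rfl⟩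
  obtain ⟨T, hT⟩ : ∃ T, T = sievePrimes m z := ⟨_, rfl⟩
  have hTmem : ∀ l ∈ T, l.Prime ∧ m < l ∧ l ≤ z := fun l hl => by
    rw [hT, sievePrimes, mem_filter, mem_primesUpTo] at hl
    exact ⟨hl.1.1, hl.2, hl.1.2⟩
  obtain ⟨E, hE⟩ : ∃ E, E = B * (z : ℝ) ^ 9 * (√(N : ℝ) * L ^ 4 + 1) := ⟨_, rfl⟩
  have hE0 : 0 ≤ E := hE ▸ by positivity
  have hcount : ∀ K : Finset ℕ, K.card ≤ 2 → K ⊆ T →
      |((P.filter fun p => ∀ l ∈ K, l ∣ pointsMod W p).card : ℝ) -
        (∏ l ∈ K, localShare l) * logInt N| ≤ E := fun K hK2 hKT => by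
    have h := hcnt K z hK2 (by omega) (fun l hl => hTmem l (hKT hl)) N hN
    rw [← hLdef, ← hE] at h
    have e : (P.filter fun p => ∀ l ∈ K, l ∣ pointsMod W p) = dvdCount W K N := by
      rw [hP, dvdCount, dvdCount, filter_filter]
      exact filter_congr fun p _ => by simp [and_assoc]
    rw [e]
    exact h
  have hP0 : |(P.card : ℝ) - logInt N| ≤ E := by
    simpa using hcount ∅ (by simp) (empty_subset _)
  have hliL : (N : ℝ) / (2 * L) ≤ logInt N := by
    rw [le_div_iff₀ hN0] at hliN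
    rw [div_le_iff₀ (by positivity)]
    linarith
  -- the error is negligible
  have h7 : L ^ (7 : ℕ) ≤ 1 / (32 * (B + 1)) * (N : ℝ) ^ (9 / 40 : ℝ) := by
    rw [show (7 : ℝ) = ((7 : ℕ) : ℝ) by norm_num, Real.rpow_natCast,
      Real.norm_of_nonneg (pow_nonneg (by linarith) 7),
      Real.norm_of_nonneg (Real.rpow_nonneg hN0.le _)] at hsmall
    exact hsmall
  have herr : ∀ w : ℝ, w ≤ (z : ℝ) ^ 2 * (1 + L) ^ 2 → w * E ≤ (N : ℝ) / (4 * L) :=
    fun w hw => hE ▸ error_le hB (by linarith) (Nat.one_le_cast.2 (by omega))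
      (Nat.cast_nonneg z) hzy hy hw h7
  have herr1 := herr 1 (one_le_mul_of_one_le_of_one_le (one_le_pow₀ hz1)
    (one_le_pow₀ (by linarith)))
  have hhalf : (N : ℝ) / (2 * L) = 2 * ((N : ℝ) / (4 * L)) := by ring
  have hpos : 0 ≤ (N : ℝ) / (4 * L) := by positivity
  have hPge : logInt N ≤ 2 * P.card := by linarith [(abs_le.1 hP0).1]
  rw [← hP]
  refine ⟨by linarith, ?_⟩
  have hTz : (T.card : ℝ) ≤ z := by
    refine Nat.cast_le.2 ((card_le_card (t := Icc 1 z) fun l hl => ?_).trans (by simp))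
    exact mem_Icc.2 ⟨(hTmem l hl).1.one_le, (hTmem l hl).2.2⟩
  have hσ := abs_le.1 (hC N z hz2 (hy ▸ hzy) (by rw [← hy]; linarith) (hLdef ▸ hL))
  rw [← hT, ← hxdef] at hσ
  have hmom := sum_sq_le (T := T) (P := P) (M := pointsMod W) (li := logInt N) (E := E) (x := x)
    (by linarith) (fun l hl => (hTmem l hl).1.two_le) (by linarith [(abs_le.1 hP0).2])
    (fun l hl => by
      have h := abs_le.1 (hcount {l} (by simp) (singleton_subset_iff.2 hl))
      simp only [mem_singleton, forall_eq, prod_singleton] at h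
      linarith)
    (fun l hl q hq => by
      have h := abs_le.1 (hcount {l, q} card_le_two (by simp [insert_subset_iff, hl, hq]))
      simp only [mem_insert, mem_singleton, forall_eq_or_imp, forall_eq] at h
      linarith)
    ((div_nonneg hN0.le (by positivity)).trans hliL)
  have hTx : (T.card : ℝ) + x ≤ (z : ℝ) * (1 + L) := by
    have := mul_le_mul_of_nonneg_right hz1 (show (0 : ℝ) ≤ L by linarith)
    linarith
  have hTx0 : (0 : ℝ) ≤ (T.card : ℝ) + x := add_nonneg (Nat.cast_nonneg _) (by linarith)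
  have hTx2 : ((T.card : ℝ) + x) ^ 2 ≤ (z : ℝ) ^ 2 * (1 + L) ^ 2 :=
    (pow_le_pow_left₀ hTx0 hTx 2).trans_eq (mul_pow (z : ℝ) (1 + L) 2)
  have hTE := herr (((T.card : ℝ) + x) ^ 2) hTx2
  have hσ2 : (∑ l ∈ T, localShare l - x) ^ 2 + ∑ l ∈ T, localShare l ≤ (C ^ 2 + C + 1) * x := by
    have h1 := sq_le_sq' hσ.1 hσ.2
    have h2 := mul_le_mul_of_nonneg_left hx1 (show (0 : ℝ) ≤ C ^ 2 + C by positivity)
    linarith [hσ.2]
  have hNx : (N : ℝ) / (4 * L) ≤ 1 * x * logInt N := by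
    rw [one_mul]
    exact (show (N : ℝ) / (4 * L) ≤ logInt N by linarith).trans
      (le_mul_of_one_le_left (by linarith) hx1)
  have hsum : ∑ p ∈ P, (((T.filter (· ∣ pointsMod W p)).card : ℝ) - x) ^ 2 ≤
      2 * (C ^ 2 + C + 2) * P.card * x := by
    refine hmom.trans ((add_le_add (mul_le_mul_of_nonneg_right hσ2
      ((div_nonneg hN0.le (by positivity)).trans hliL)) (hTE.trans hNx)).trans ?_)
    have := mul_le_mul_of_nonneg_left hPge (show 0 ≤ (C ^ 2 + C + 2) * x by positivity)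
    linarith
  refine (sum_omega_sq_le W (m := m) x (by omega) hN hNz fun p hp => ?_).trans ?_
  · rw [hP, dvdCount, mem_filter, mem_Icc] at hp
    exact ⟨hp.2.1, hp.1.2⟩
  rw [← hT]
  have := mul_le_mul_of_nonneg_left hx1
    (mul_nonneg (Nat.cast_nonneg (α := ℝ) P.card)
      (mul_nonneg two_pos.le (sq_nonneg ((m : ℝ) + 121))))
  linarith

end FA.PointOmega

end
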