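import Fermat.Agent.LangTrotterGRH.Classes
import Fermat.Agent.PrimeDivisors.Product

/-!
# Divisibility of point counts by given primes, on the Riemann hypothesis

If Galois is onto at the levels prime to `m`, then for any set of primes beyond `m`, of product
`d`, the good `p ≤ N` with all of them dividing `#E(𝔽_p)` number
`∏ c_l li N + O (d ^ 4 log (e d) √N log ^ 4 N)`,
`c_l = (l ^ 2 - 2) / ((l ^ 2 - 1) (l - 1))` the share of matrices with eigenvalue one.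
-/

set_option autoImplicit false
set_option linter.style.haveILetI false

noncomputable section

open Matrix Finset WeierstrassCurve FA.Frob
open FA.ArtinHooley (logInt)
open FA.CyclicRed (imageShare AllFieldsRH badPrimes)
open FA.PrimeDivisors (level toProd prodRep)
open scoped Classical WeierstrassCurve.Affine

local notation "Qb" => AlgebraicClosure ℚ
local notation "GQ" => AlgebraicClosure ℚ ≃ₐ[ℚ] AlgebraicClosure ℚ

namespace FA.PointOmega

variable (W : WeierstrassCurve ℤ)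

/-- The number of points modulo `p`. -/
def pointsMod (p : ℕ) : ℕ := Nat.card (W.map (Int.castRingHom (ZMod p))).toAffine.Point

/-- The good `p ≤ N` whose number of points each member of `L` divides. -/
def dvdCount (L : Finset ℕ) (N : ℕ) : Finset ℕ :=
  (Icc 1 N).filter fun p => p.Prime ∧ (p ∉ badPrimes W ∧ ∀ l ∈ L, l ∣ pointsMod W p)

/-- The share of the matrices modulo `l` with eigenvalue one. -/
def localShare (l : ℕ) : ℝ := ((l : ℝ) ^ 2 - 2) / (((l : ℝ) ^ 2 - 1) * ((l : ℝ) - 1))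

theorem pointsMod_pos (p : ℕ) [Fact p.Prime] : 0 < pointsMod W p ∧ pointsMod W p ≤ p ^ 2 + 1 := by
  obtain ⟨V, hV⟩ : ∃ V, V = (W.map (Int.castRingHom (ZMod p))).toAffine := ⟨_, rfl⟩
  rw [pointsMod, ← hV]
  let f : V.Point → Option (ZMod p × ZMod p) := fun P => match P with
    | .zero => none
    | .some (x := x) (y := y) _ => some (x, y)
  have hf : Function.Injective f := by
    intro P Q e
    rcases P with _ | _ <;> rcases Q with _ | _ <;> simp_all [f]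
  haveI : Finite V.Point := Finite.of_injective f hf
  haveI : Nonempty V.Point := ⟨.zero⟩
  refine ⟨Nat.card_pos, (Nat.card_le_card_of_injective f hf).trans (le_of_eq ?_)⟩
  rw [Finite.card_option, Nat.card_prod, Nat.card_zmod, sq]

theorem dvd_pointsMod_iff (l : ℕ) {p : ℕ} [Fact p.Prime] :
    l ∣ pointsMod W p ↔ (W.apOfModel p : ZMod l) = (p : ZMod l) + 1 := by
  have e : (W.apOfModel p : ZMod l) = (p : ZMod l) + 1 - (pointsMod W p : ZMod l) := by
    simp [apOfModel, traceOfFrobenius, WeierstrassCurve.card, reductionMod, pointsMod]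
  rw [← ZMod.natCast_eq_zero_iff, e]
  exact ⟨fun h => by rw [h, sub_zero], fun h => by linear_combination -h⟩

theorem localShare_bounds {l : ℕ} (hl : 2 ≤ l) :
    1 / (l : ℝ) ≤ localShare l ∧ localShare l ≤ 1 / (l : ℝ) + 2 / (l : ℝ) ^ 2 ∧
      0 ≤ localShare l := by
  have h2 : (2 : ℝ) ≤ l := Nat.ofNat_le_cast.2 hl
  have hd : 0 < ((l : ℝ) ^ 2 - 1) * ((l : ℝ) - 1) := by nlinarith
  refine ⟨?_, ?_, div_nonneg (by nlinarith) hd.le⟩
  · rw [localShare, div_le_div_iff₀ (by linarith) hd]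
    nlinarith
  · rw [localShare, show 1 / (l : ℝ) + 2 / (l : ℝ) ^ 2 = ((l : ℝ) + 2) / (l : ℝ) ^ 2 by field_simp,
      div_le_div_iff₀ hd (by positivity)]
    nlinarith [mul_le_mul_of_nonneg_left h2 (sq_nonneg (l : ℝ))]

theorem share_fixing {l : ℕ} (hl : l.Prime) :
    (Nat.card {g : GL (Fin 2) (ZMod l) // g.1.trace = g.1.det + 1} : ℝ) /
      Nat.card (GL (Fin 2) (ZMod l)) = localShare l := by
  haveI := Fact.mk hl
  have h := congrArg (Nat.cast (R := ℝ)) (FA.TraceDist.card_fixing (k := ZMod l))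
  push_cast [ZMod.card] at h
  rw [FA.TraceDist.card_gl2, ZMod.card, Nat.cast_mul,
    Nat.cast_sub (Nat.one_le_pow _ _ hl.pos), Nat.cast_sub (Nat.le_self_pow two_ne_zero l),
    eq_sub_of_add_eq h, localShare]
  push_cast
  have h2 : (2 : ℝ) ≤ l := Nat.ofNat_le_cast.2 hl.two_le
  rw [div_eq_div_iff (by nlinarith) (by nlinarith)]
  ring

variable [(ratCurve W).IsElliptic]

/-- **The counts at any primes.** -/
theorem exists_dvdCount_level_le (hΔ : W.Δ ≠ 0) (hGRH : AllFieldsRH) {m : ℕ} (hm : m ≠ 0)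
    (hsurj : ∀ N : ℕ, N ≠ 0 → N.Coprime m →
      ∀ φ : Submodule.torsionBy ℤ ((ratCurve W)⁄Qb).Point (N : ℤ) ≃+
        Submodule.torsionBy ℤ ((ratCurve W)⁄Qb).Point (N : ℤ),
      ∃ σ : GQ, ∀ x, σ • x.1 = (φ x).1) :
    ∃ B : ℝ, 0 ≤ B ∧ ∀ L : Finset ℕ, (∀ l ∈ L, l.Prime ∧ m < l) → ∀ N : ℕ, 2 ≤ N →
      |((dvdCount W L N).card : ℝ) - (∏ l ∈ L, localShare l) * logInt N| ≤
        B * (((∏ l ∈ L, l : ℕ) : ℝ) ^ 4 * (1 + Real.log (∏ l ∈ L, l : ℕ))) *
          (√(N : ℝ) * Real.log N ^ 4 + 1) := by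
  obtain ⟨A, hA, hcount⟩ := FA.CyclicRed.exists_count_of_GRH
  obtain ⟨D, hD⟩ : ∃ D, D = ∑ p ∈ badPrimes W, Real.log p := ⟨_, rfl⟩
  have hD0 : 0 ≤ D := hD ▸ sum_nonneg fun p _ => Real.log_natCast_nonneg p
  refine ⟨A * (7 + D) + ((badPrimes W).card + 1), by positivity, fun L hL N hN => ?_⟩
  have hLp : ∀ l ∈ L, l.Prime := fun l hl => (hL l hl).1
  haveI : NeZero (level L) := ⟨Finset.prod_ne_zero_iff.mpr fun l _ => (hLp l l.2).ne_zero⟩
  haveI : ∀ l : L, NeZero (l : ℕ) := fun l => ⟨(hLp l l.2).ne_zero⟩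
  have hcop : (level L).Coprime m := Nat.Coprime.prod_left fun l _ =>
    (hLp l l.2).coprime_iff_not_dvd.mpr fun hd => by
      have := Nat.le_of_dvd (Nat.pos_of_ne_zero hm) hd
      have := (hL l l.2).2
      omega
  obtain ⟨ρ, hρ⟩ : ∃ ρ, ρ = prodRep L (W := W) := ⟨_, rfl⟩
  have hρs : Function.Surjective ρ := hρ ▸ (FA.PrimeDivisors.toProd_surjective L hLp).comp
    (FA.TraceDist.glLevel_surjective (hsurj (level L) (NeZero.ne _) hcop))
  obtain ⟨S, hS⟩ : ∃ S, S = L ∪ badPrimes W := ⟨_, rfl⟩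
  have hSp : ∀ p : ℕ, p.Prime → p ∉ S → ¬ p ∣ level L ∧ p ∉ badPrimes W := fun p hp hpS => by
    rw [hS, mem_union, not_or] at hpS
    refine ⟨fun hd => ?_, hpS.2⟩
    obtain ⟨i, -, hi⟩ := (Prime.dvd_finsetProd_iff hp.prime _).mp hd
    exact hpS.1 ((Nat.prime_dvd_prime_iff_eq hp (hLp i i.2)).mp hi ▸ i.2)
  have h1 := hcount ρ (hρ ▸ FA.PrimeDivisors.isOpen_ker_prodRep L) hGRH S
    (fun p hp => by
      rw [hS, mem_union] at hp
      rcases hp with hp | hp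
      exacts [hLp p hp, FA.CyclicRed.prime_of_mem_badPrimes W hp])
    (fun p hp hpS B hB => (FA.CyclicRed.inertia_le_ker_glLevel W hp
      (FA.CyclicRed.good_of_not_mem hΔ hp (hSp p hp hpS).2).2 (hSp p hp hpS).1 hB).trans
      fun σ hσ => by
        rw [MonoidHom.mem_ker] at hσ ⊢
        rw [hρ, prodRep, MonoidHom.comp_apply, hσ, map_one])
    {g | ∀ l : L, (g l).1.trace = (g l).1.det + 1}
    (fun g hg x l => by
      rw [Pi.mul_apply, Pi.mul_apply, Pi.inv_apply, Units.val_mul, Units.val_mul,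
        trace_units_conj, det_units_conj]
      exact hg l)
    (fun p => p ∉ badPrimes W ∧ ∀ l ∈ L, l ∣ pointsMod W p)
    (fun p hp hpS B hB σ hσ => by
      obtain ⟨hpl, hbad⟩ := hSp p hp hpS
      haveI := Fact.mk hp
      rw [and_iff_right hbad]
      have hfr := fun l : L => FA.PrimeDivisors.prodRep_frobenius (W := W) L hp hpl
        (FA.CyclicRed.good_of_not_mem hΔ hp hbad).2 hB hσ l
      rw [← hρ] at hfr
      refine ⟨fun h l => ?_, fun h l hl => ?_⟩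
      · rw [(hfr l).1, (hfr l).2, ← dvd_pointsMod_iff]
        exact h l l.2
      · have := h ⟨l, hl⟩
        rwa [(hfr ⟨l, hl⟩).1, (hfr ⟨l, hl⟩).2, ← dvd_pointsMod_iff] at this) N hN
  obtain ⟨hsh, hn⟩ := FA.LangTrotterGRH.imageShare_of_surjective hρs
    {g : ∀ l : L, GL (Fin 2) (ZMod (l : ℕ)) | ∀ l : L, (g l).1.trace = (g l).1.det + 1}
  have hprod : imageShare ρ {g | ∀ l : L, (g l).1.trace = (g l).1.det + 1} =
      ∏ l ∈ L, localShare l := by
    rw [hsh, ← Finset.prod_coe_sort L]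
    simp only [Set.coe_ofPred]
    rw [Nat.card_congr (Equiv.subtypePiEquivPi
        (p := fun (l : L) (g : GL (Fin 2) (ZMod (l : ℕ))) => g.1.trace = g.1.det + 1)),
      Nat.card_pi, Nat.card_pi, Nat.cast_prod, Nat.cast_prod, ← Finset.prod_div_distrib]
    exact Finset.prod_congr rfl fun l _ => share_fixing (hLp l l.2)
  rw [hprod, hn] at h1
  obtain ⟨d, hddef⟩ : ∃ d, d = ∏ l ∈ L, l := ⟨_, rfl⟩
  rw [← hddef]
  have hd1 : 1 ≤ d := hddef ▸ prod_pos fun l hl => (hLp l hl).pos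
  have hd1' : (1 : ℝ) ≤ d := Nat.one_le_cast.2 hd1
  have hG : (Nat.card (∀ l : L, GL (Fin 2) (ZMod (l : ℕ))) : ℝ) ≤ (d : ℝ) ^ 4 := by
    rw [← Nat.cast_pow, Nat.cast_le, Nat.card_pi, hddef, ← Finset.prod_pow,
      ← Finset.prod_coe_sort L]
    exact prod_le_prod' fun l _ => FA.CyclicRed.natCard_gl_le (l : ℕ)
  have hpr : ∏ l ∈ L, localShare l ≤ 1 := hprod ▸ FA.CyclicRed.imageShare_le_one _ _
  have hlogd : 0 ≤ Real.log d := Real.log_natCast_nonneg d
  have hlogG : Real.log (Nat.card (∀ l : L, GL (Fin 2) (ZMod (l : ℕ)))) ≤ 4 * Real.log d := by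
    refine (Real.log_le_log (Nat.cast_pos.2 Nat.card_pos) hG).trans (le_of_eq ?_)
    rw [Real.log_pow]
    norm_num
  have hsum : ∑ p ∈ S, Real.log p ≤ Real.log d + D := by
    rw [hS, hD, hddef, Nat.cast_prod,
      Real.log_prod fun l hl => Nat.cast_ne_zero.2 (hLp l hl).ne_zero, ← sum_union_inter]
    exact le_add_of_nonneg_right (sum_nonneg fun p _ => Real.log_natCast_nonneg p)
  have hcard : (S.card : ℝ) ≤ (badPrimes W).card + (d : ℝ) ^ 4 := by
    have h : L.card ≤ d := hddef ▸ (Nat.lt_two_pow_self.le.trans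
      (pow_card_le_prod _ _ _ fun l hl => (hLp l hl).two_le))
    rw [hS]
    refine (Nat.cast_le.2 ((card_union_le L (badPrimes W)).trans
      (Nat.add_le_add_right h _))).trans ?_
    push_cast
    linarith [le_self_pow₀ hd1' (show 4 ≠ 0 by norm_num)]
  obtain ⟨R, hR⟩ : ∃ R, R = √(N : ℝ) * Real.log N ^ 4 := ⟨_, rfl⟩
  have hR0 : 0 ≤ R := hR ▸
    mul_nonneg (Real.sqrt_nonneg _) (pow_nonneg (Real.log_natCast_nonneg N) 4)
  rw [← hR] at h1 ⊢
  refine (le_of_eq_of_le (by rw [dvdCount]; congr!) h1).trans ?_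
  obtain ⟨n, hndef⟩ : ∃ n : ℝ, n = Nat.card (∀ l : L, GL (Fin 2) (ZMod (l : ℕ))) := ⟨_, rfl⟩
  rw [← hndef] at hG hlogG ⊢
  have hn0 : 0 ≤ n := hndef ▸ Nat.cast_nonneg _
  have hs0 : 0 ≤ ∑ p ∈ S, Real.log (p : ℝ) := sum_nonneg fun p _ => Real.log_natCast_nonneg p
  have hln0 : 0 ≤ Real.log n := hndef ▸ Real.log_natCast_nonneg _
  obtain ⟨T, hT⟩ : ∃ T, T = (d : ℝ) ^ 4 * (1 + Real.log d) := ⟨_, rfl⟩
  rw [← hT]
  have h2 : (∏ l ∈ L, localShare l) * n * (2 + Real.log n + ∑ p ∈ S, Real.log p) ≤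
      T * (7 + D) := by
    rw [hT]
    refine (mul_le_mul ((mul_le_of_le_one_left hn0 hpr).trans hG) (show
      2 + Real.log n + ∑ p ∈ S, Real.log p ≤ (1 + Real.log d) * (7 + D) by nlinarith) (by linarith)
      (pow_nonneg (Nat.cast_nonneg d) 4)).trans (le_of_eq (by ring))
  have h3 := mul_le_mul_of_nonneg_right (mul_le_mul_of_nonneg_left h2 hA) hR0
  have hT4 : (d : ℝ) ^ 4 ≤ T :=
    hT ▸ le_mul_of_one_le_right (pow_nonneg (Nat.cast_nonneg d) 4) (by linarith)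
  have hT1 : 1 ≤ T := (one_le_pow₀ hd1').trans hT4
  have h5 := mul_le_mul_of_nonneg_left hT1 (Nat.cast_nonneg (α := ℝ) (badPrimes W).card)
  have h6 : 0 ≤ A * (T * (7 + D)) := by positivity
  have h7 : 0 ≤ (((badPrimes W).card : ℝ) + 1) * T * R := by positivity
  linarith

/-- **The counts at two primes.** -/
theorem exists_dvdCount_le (hΔ : W.Δ ≠ 0) (hGRH : AllFieldsRH) {m : ℕ} (hm : m ≠ 0)
    (hsurj : ∀ N : ℕ, N ≠ 0 → N.Coprime m →
      ∀ φ : Submodule.torsionBy ℤ ((ratCurve W)⁄Qb).Point (N : ℤ) ≃+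
        Submodule.torsionBy ℤ ((ratCurve W)⁄Qb).Point (N : ℤ),
      ∃ σ : GQ, ∀ x, σ • x.1 = (φ x).1) :
    ∃ B : ℝ, 0 ≤ B ∧ ∀ (L : Finset ℕ) (z : ℕ), L.card ≤ 2 → 1 ≤ z →
      (∀ l ∈ L, l.Prime ∧ m < l ∧ l ≤ z) → ∀ N : ℕ, 2 ≤ N →
      |((dvdCount W L N).card : ℝ) - (∏ l ∈ L, localShare l) * logInt N| ≤
        B * (z : ℝ) ^ 9 * (√(N : ℝ) * Real.log N ^ 4 + 1) := by
  obtain ⟨B, hB, h⟩ := exists_dvdCount_level_le W hΔ hGRH hm hsurj
  refine ⟨3 * B, by linarith, fun L z hL2 hz hL N hN => ?_⟩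
  refine (h L (fun l hl => ⟨(hL l hl).1, (hL l hl).2.1⟩) N hN).trans ?_
  have hR : 0 ≤ √(N : ℝ) * Real.log N ^ 4 + 1 := by
    have := Real.log_natCast_nonneg N
    positivity
  have hd : ∏ l ∈ L, l ≤ z ^ 2 :=
    (prod_le_pow_card _ _ _ fun l hl => (hL l hl).2.2).trans (Nat.pow_le_pow_right hz hL2)
  obtain ⟨d, hddef⟩ : ∃ d, d = ∏ l ∈ L, l := ⟨_, rfl⟩
  rw [← hddef] at hd ⊢
  have hd1 : 1 ≤ d := hddef ▸ prod_pos fun l hl => (hL l hl).1.pos
  have hz1 : (1 : ℝ) ≤ z := Nat.one_le_cast.2 hz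
  have hdR : (d : ℝ) ≤ (z : ℝ) ^ 2 := by exact_mod_cast hd
  have h4 : (d : ℝ) ^ 4 ≤ (z : ℝ) ^ 8 :=
    (pow_le_pow_left₀ (Nat.cast_nonneg d) hdR 4).trans (le_of_eq (by ring))
  have hl : 1 + Real.log d ≤ 3 * z := by
    have h5 := Real.log_le_log (Nat.cast_pos.2 hd1) hdR
    rw [Real.log_pow] at h5
    push_cast at h5
    linarith [Real.log_le_self (Nat.cast_nonneg (α := ℝ) z)]
  refine mul_le_mul_of_nonneg_right ?_ hR
  refine (mul_le_mul_of_nonneg_left (mul_le_mul h4 hl (by linarith [Real.log_natCast_nonneg d])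
    (pow_nonneg (Nat.cast_nonneg z) 8)) hB).trans (le_of_eq (by ring))

end FA.PointOmega

end
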